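import Fermat.Agent.AV.Tors.Ext.CF
import Fermat.Agent.Curve.Riemann
import Fermat.Agent.Curve.RiemannRoch
import Fermat.Agent.Curve.PlaceExtras
import Fermat.Agent.Curve.ConstExt.PicMap
import Fermat.Agent.Curve.ConstExt.Genus

/-!
# Riemann's inequality after an extension of constants, a divisor of degree `g` in general position
-/

set_option autoImplicit false

noncomputable section

universe u

open AlgebraicCurve

namespace FermatLib.AV.Tors

variable {K : Type u} [Field K] [IsAlgClosed K] {F : Type u} [Field F] [Algebra K F]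
  [Curve.IsFunctionField K F]

theorem finrank_riemannRochSpace_le_degree_add_one (D : Divisor K F)
    (h : 0 ≤ Divisor.degree D) :
    (Module.finrank K ↥(riemannRochSpace D) : ℤ) ≤ Divisor.degree D + 1 := by
  rcases eq_or_ne (riemannRochSpace D) ⊥ with h0 | h0
  · rw [h0, finrank_bot]
    push_cast
    omega
  obtain ⟨f, hf, hf0⟩ := (Submodule.ne_bot_iff _).mp h0
  have hE : (0 : Divisor K F) ≤ D + Curve.divOf f := Finsupp.le_def.mpr fun v => by
    have := Curve.le_ord_of_mem (Curve.mem_riemannRochSpace.mp hf v) hf0
    simp
    omega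
  have h1 := Curve.finrank_riemannRochSpace_le_add hE
  rw [Curve.finrank_riemannRochSpace_add_divOf _ hf0, Curve.finrank_riemannRochSpace_zero,
    map_zero, map_add, Curve.degree_divOf] at h1
  omega

/-- An effective divisor with only constant functions: every effective divisor in its class is
equal to it. -/
theorem eq_algebraMap_of_finrank_eq_one {P : Divisor K F} (hP : 0 ≤ P)
    (h1 : Module.finrank K ↥(riemannRochSpace P) = 1) {f : F} (hf : f ∈ riemannRochSpace P) :
    ∃ c : K, f = algebraMap K F c := by
  have hle := Curve.riemannRochSpace_mono hP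
  have he := Submodule.eq_of_le_of_finrank_eq hle (by rw [h1, Curve.finrank_riemannRochSpace_zero])
  rw [← he, Curve.riemannRochSpace_zero] at hf
  obtain ⟨c, hc⟩ := hf
  exact ⟨c, hc.symm⟩

/-- There are places outside any finite set. -/
theorem exists_place_notMem (S : Set (Place K F)) (hS : S.Finite) : ∃ v, v ∉ S := by
  by_contra! hall
  have : Finite (Place K F) := Set.finite_univ_iff.mp (hS.subset fun v _ => hall v)
  obtain ⟨u, hu, _⟩ := ‹Curve.IsFunctionField K F›.exists_transcendental
  have hinj : ∀ c : K, ∃ v : Place K F, 0 < v.ord (u - algebraMap K F c) := fun c =>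
    Curve.exists_ord_pos_of_transcendental fun h => hu (by
      simpa using h.add (isAlgebraic_algebraMap (R := K) (A := F) c))
  choose z hz using hinj
  have hzinj : Function.Injective z := by
    intro c c' e
    by_contra hne
    have h1 := Curve.mem_ordGE_of_le (v := z c) (n := 1) (hz c)
    have h2 := Curve.mem_ordGE_of_le (v := z c) (n := 1) (e ▸ hz c')
    have h3 := sub_mem h2 h1
    rw [show u - algebraMap K F c' - (u - algebraMap K F c) = algebraMap K F (c - c') by
      rw [map_sub]; ring] at h3
    have h4 := Curve.le_ord_of_mem h3 ((map_ne_zero _).mpr (sub_ne_zero.mpr hne))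
    rw [Curve.ord_algebraMap] at h4
    omega
  exact not_finite_iff_infinite.mpr (inferInstance : Infinite K) (Finite.of_injective z hzinj)

/-- A genus `g₀`, an effective divisor of degree `g₀` without nonconstant functions avoiding a
given place, and Riemann's inequality over all algebraically closed fields of constants. -/
theorem exists_riemann_divisor (v₀ : Place K F) :
    ∃ (g₀ : ℕ) (P₀ : Divisor K F), 0 ≤ P₀ ∧ P₀ v₀ = 0 ∧ Divisor.degree P₀ = g₀ ∧
      Module.finrank K ↥(riemannRochSpace P₀) = 1 ∧
      ∀ (L : Type u) [Field L] [Algebra K L] [IsAlgClosed L] (D : Divisor L (CF K L F)),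
        Divisor.degree D + 1 ≤ Module.finrank L ↥(riemannRochSpace D) + (g₀ : ℤ) := by
  classical
  obtain ⟨W, -, -, hRR⟩ := Curve.exists_canonical_riemann_roch K F
  have key : ∀ i ≤ genusFF K F, ∃ P : Divisor K F, 0 ≤ P ∧ P v₀ = 0 ∧ Divisor.degree P = i ∧
      Module.finrank K ↥(riemannRochSpace P) = 1 := by
    intro i
    induction i with
    | zero =>
      exact fun _ => ⟨0, le_rfl, rfl, by simp, Curve.finrank_riemannRochSpace_zero⟩
    | succ i ih =>
      intro hi
      obtain ⟨P, hP0, hPv, hPd, hPl⟩ := ih (Nat.le_of_succ_le hi)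
      have hW := hRR P
      rw [hPl, hPd] at hW
      obtain ⟨f, hf, hf0⟩ := (Submodule.ne_bot_iff _).mp
        (show riemannRochSpace (W - P) ≠ ⊥ from fun h => by
          rw [h, finrank_bot] at hW
          omega)
      obtain ⟨v, hv⟩ := exists_place_notMem
        ((insert v₀ (↑W.support ∪ ↑P.support) : Set (Place K F)) ∪ {v | v.ord f ≠ 0})
        (((W.support.finite_toSet.union P.support.finite_toSet).insert v₀).union
          (Curve.finite_setOf_ord_ne_zero f))
      simp only [Set.mem_union, Set.mem_insert_iff, Finset.mem_coe, Finsupp.mem_support_iff,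
        Set.mem_ofPred_eq, not_or, ne_eq, not_not] at hv
      obtain ⟨⟨hv0, hvW, hvP⟩, hvf⟩ := hv
      set P' := P + Finsupp.single v 1 with hP'
      have hlt : riemannRochSpace (W - P') < riemannRochSpace (W - P) := by
        refine lt_of_le_of_ne (Curve.riemannRochSpace_mono ?_) fun e => ?_
        · rw [hP', ← sub_sub]
          exact sub_le_self _ (Finsupp.single_nonneg.mpr one_pos.le)
        · rw [← e] at hf
          have h1 := Curve.le_ord_of_mem (Curve.mem_riemannRochSpace.mp hf v) hf0
          simp [hP', hvW, hvP, hvf] at h1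
      have hlt' := Submodule.finrank_lt_finrank_of_lt hlt
      have hP'0 : 0 ≤ P' := add_nonneg hP0 (Finsupp.single_nonneg.mpr one_pos.le)
      have hd : Divisor.degree P' = (i + 1 : ℕ) := by
        rw [hP', map_add, hPd, Divisor.degree_single, Curve.deg_eq_one]
        push_cast
        ring
      refine ⟨P', hP'0, ?_, hd, ?_⟩
      · rw [hP', Finsupp.add_apply, hPv, Finsupp.single_eq_of_ne (Ne.symm hv0), add_zero]
      · have h1 := Submodule.finrank_mono (Curve.riemannRochSpace_mono hP'0)
        rw [Curve.finrank_riemannRochSpace_zero] at h1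
        have h2 := hRR P'
        rw [hd] at h2
        push_cast at h2
        omega
  obtain ⟨P, hP0, hPv, hPd, hPl⟩ := key _ le_rfl
  refine ⟨genusFF K F, P, hP0, hPv, hPd, hPl, fun L _ _ _ D => ?_⟩
  obtain ⟨N, hN⟩ := Curve.exists_finrank_riemannRochSpace_eq K F
  obtain ⟨N', hN'⟩ := Curve.exists_finrank_riemannRochSpace_eq L (CF K L F)
  have hg := (isConstantExtension_CF K L F).eq_of_finrank_riemannRochSpace hN hN'
  have := Curve.riemann_inequality D
  omega

end FermatLib.AV.Tors
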